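import Mathlib

set_option autoImplicit false

namespace Fermat.Agent.S57

open RingTheory.Sequence IsLocalRing Submodule Pointwise

/-- Key step: if `y ∈ m` is `N`-regular and `p ∈ Ass N`, there is `q ∈ Ass (N/yN)` with
`p < q` (strictly, since `y ∈ q \ p`). -/
theorem exists_lt_isAssociatedPrime_quotSMulTop {B : Type*} [CommRing B] [IsNoetherianRing B]
    [IsLocalRing B] {N : Type*} [AddCommGroup N] [Module B N] [Module.Finite B N]
    {y : B} (hy : y ∈ maximalIdeal B) (hreg : IsSMulRegular N y)
    {p : Ideal B} (hp : IsAssociatedPrime p N) :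
    ∃ q : Ideal B, IsAssociatedPrime q (QuotSMulTop y N) ∧ p < q := by
  classical
  obtain ⟨hpprime, z, hz⟩ := (isAssociatedPrime_iff).1 hp
  -- `z ≠ 0`
  have hz0 : z ≠ 0 := by
    rintro rfl
    apply hpprime.ne_top
    rw [hz]
    ext a
    simp [mem_colon_singleton]
  -- `U = {u | p u = 0}`
  let U : Submodule B N :=
    { carrier := {u | ∀ a ∈ p, a • u = 0}
      add_mem' := by
        intro u v hu hv a ha
        rw [smul_add, hu a ha, hv a ha, add_zero]
      zero_mem' := by intro a _; exact smul_zero a
      smul_mem' := by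
        intro c u hu a ha
        rw [smul_comm, hu a ha, smul_zero] }
  have hzU : z ∈ U := by
    intro a ha
    rw [hz, mem_colon_singleton, mem_bot] at ha
    exact ha
  -- `U` is not contained in `y N`
  have hU : ¬ (U ≤ y • (⊤ : Submodule B N)) := by
    intro hle
    have hUle : U ≤ (maximalIdeal B) • U := by
      intro u hu
      obtain ⟨u', -, rfl⟩ := (Submodule.mem_smul_pointwise_iff_exists _ _ _).1 (hle hu)
      have hu' : u' ∈ U := by
        intro a ha
        have := hu a ha
        rw [smul_comm] at this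
        exact hreg.right_eq_zero_of_smul this
      exact Submodule.smul_mem_smul hy hu'
    have hfg : U.FG := IsNoetherian.noetherian U
    have : U = ⊥ := Submodule.eq_bot_of_le_smul_of_le_jacobson_bot (maximalIdeal B) U hfg hUle
      (maximalIdeal_le_jacobson _)
    rw [this] at hzU
    exact hz0 ((Submodule.mem_bot B).1 hzU)
  obtain ⟨u, huU, hu⟩ := SetLike.not_le_iff_exists.1 hU
  -- the image of `u` in `N / yN`
  have hubar : (Submodule.Quotient.mk u : QuotSMulTop y N) ≠ 0 := by
    intro h
    exact hu ((Submodule.Quotient.mk_eq_zero _).1 h)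
  obtain ⟨q, hq, hle⟩ := exists_le_isAssociatedPrime_of_isNoetherianRing B
    (Submodule.Quotient.mk u : QuotSMulTop y N) hubar
  refine ⟨q, hq, ?_⟩
  have hpq : p ≤ q := by
    intro a ha
    apply hle
    rw [mem_colon_singleton, mem_bot, ← Submodule.Quotient.mk_smul, huU a ha]
    rfl
  have hyq : y ∈ q := by
    apply hle
    rw [mem_colon_singleton, mem_bot, ← Submodule.Quotient.mk_smul,
      Submodule.Quotient.mk_eq_zero]
    exact Submodule.smul_mem_pointwise_smul u y ⊤ Submodule.mem_top
  have hyp : y ∉ p := by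
    intro hyp
    rw [hz, mem_colon_singleton, mem_bot] at hyp
    exact hz0 (hreg.right_eq_zero_of_smul hyp)
  exact lt_of_le_of_ne hpq (fun h => hyp (h ▸ hyq))

/-- (A) If `N` (finite over a Noetherian local ring `B`) has a regular sequence `ys` inside the
maximal ideal, then every associated prime `p` of `N` is the bottom of a strict chain of primes of
length `ys.length`. -/
theorem exists_ltSeries_of_isRegular {B : Type*} [CommRing B] [IsNoetherianRing B]
    [IsLocalRing B] {N : Type*} [AddCommGroup N] [Module B N] [Module.Finite B N]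
    (ys : List B) (hmem : ∀ y ∈ ys, y ∈ maximalIdeal B) (hreg : IsRegular N ys)
    {p : Ideal B} (hp : IsAssociatedPrime p N) :
    ∃ l : LTSeries (PrimeSpectrum B), l.length = ys.length ∧ l.head.asIdeal = p := by
  induction ys generalizing N p with
  | nil =>
    exact ⟨RelSeries.singleton _ ⟨p, hp.isPrime⟩, rfl, rfl⟩
  | cons y ys ih =>
    rw [isRegular_cons_iff] at hreg
    have hy : y ∈ maximalIdeal B := hmem y List.mem_cons_self
    obtain ⟨q, hq, hpq⟩ := exists_lt_isAssociatedPrime_quotSMulTop hy hreg.1 hp
    obtain ⟨l, hl, hhead⟩ := ih (N := QuotSMulTop y N)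
      (fun y' hy' => hmem y' (List.mem_cons_of_mem _ hy')) hreg.2 hq
    refine ⟨l.cons ⟨p, hp.isPrime⟩ ?_, ?_, ?_⟩
    · change (⟨p, hp.isPrime⟩ : PrimeSpectrum B) < l.head
      rw [← PrimeSpectrum.asIdeal_lt_asIdeal, hhead]
      exact hpq
    · simp [hl]
    · simp

universe u

/-- (A), interface form: if `zs ⊆ m` is weakly regular on the finite module `N` over the Noetherian
local ring `B` and `P ∈ Ass N`, then `zs.length ≤ dim B/P`. -/
theorem le_ringKrullDim_quotient_of_mem_associatedPrimes {B : Type u} [CommRing B] [IsLocalRing B]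
    [IsNoetherianRing B] {N : Type u} [AddCommGroup N] [Module B N] [Module.Finite B N]
    (zs : List B) (hreg : IsWeaklyRegular N zs) (hmem : ∀ z ∈ zs, z ∈ maximalIdeal B)
    (P : Ideal B) (hP : P ∈ associatedPrimes B N) :
    (zs.length : WithBot ℕ∞) ≤ ringKrullDim (B ⧸ P) := by
  have hP' : IsAssociatedPrime P N := hP
  have hnt : Nontrivial N := by
    by_contra h
    rw [not_nontrivial_iff_subsingleton] at h
    exact not_isAssociatedPrime_of_subsingleton hP'
  have hreg' : IsRegular N zs := IsRegular.of_isWeaklyRegular_of_mem_maximalIdeal N hmem hreg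
  obtain ⟨l, hl, hhead⟩ := exists_ltSeries_of_isRegular zs hmem hreg' hP'
  rw [ringKrullDim_quotient]
  have hmemZ : ∀ i, l i ∈ PrimeSpectrum.zeroLocus (P : Set B) := by
    intro i
    rw [PrimeSpectrum.mem_zeroLocus, SetLike.coe_subset_coe, ← hhead]
    exact (PrimeSpectrum.asIdeal_le_asIdeal _ _).2 (LTSeries.head_le l i)
  let l' : LTSeries (PrimeSpectrum.zeroLocus (P : Set B)) :=
    { length := l.length
      toFun := fun i => ⟨l i, hmemZ i⟩
      step := fun i => l.step i }
  have : (l'.length : WithBot ℕ∞) ≤ Order.krullDim (PrimeSpectrum.zeroLocus (P : Set B)) :=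
    Order.LTSeries.length_le_krullDim l'
  rw [← hl]
  exact this

end Fermat.Agent.S57
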