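import Fermat.Prelude.Def_Algebra_PatchingDatum
import Mathlib

/-!
# S57 endgame

From freeness of the patched module `L.N` over the power series ring we deduce the three
conclusions of S57: `M` is free and faithful over `R`, and `ker ψ` is generated by the `φ (X i)`.
-/

set_option autoImplicit false

namespace Fermat.Agent.S57

open MvPowerSeries

/-- Coordinates (w.r.t. a basis) of an element of `I • ⊤` lie in `I`. -/
theorem repr_mem_of_mem_smul_top {B : Type*} [CommRing B] {N : Type*} [AddCommGroup N]
    [Module B N] {ι : Type*} (e : Module.Basis ι B N) (I : Ideal B) {x : N}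
    (hx : x ∈ I • (⊤ : Submodule B N)) (i : ι) : e.repr x i ∈ I := by
  rw [← e.span_eq, Submodule.mem_ideal_smul_span_iff_exists_sum] at hx
  obtain ⟨a, ha, rfl⟩ := hx
  have h : e.repr (a.sum fun i c => c • e i) = a := by
    rw [← Finsupp.linearCombination_apply, e.repr_linearCombination]
  rw [h]
  exact ha i

variable {𝒪 : Type} [CommRing 𝒪] {r : ℕ} {R : Type} [CommRing R] [Algebra 𝒪 R]
  {M : Type} [AddCommGroup M] [Module R M]

theorem result_of_free [Nontrivial M] {J : Ideal (MvPowerSeries (Fin r) 𝒪)}
    (L : Algebra.PatchingLevel 𝒪 r R M J)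
    [Module.Free (MvPowerSeries (Fin r) 𝒪) L.N] :
    Module.Free R M ∧ Module.annihilator R M = ⊥ ∧
      RingHom.ker L.ψ = Ideal.span (Set.range fun i : Fin r => L.φ (MvPowerSeries.X i)) := by
  classical
  set I : Ideal (MvPowerSeries (Fin r) 𝒪) :=
    Ideal.span (Set.range fun i : Fin r => L.φ (MvPowerSeries.X i)) with hI
  let ι := Module.Free.ChooseBasisIndex (MvPowerSeries (Fin r) 𝒪) L.N
  let e : Module.Basis ι (MvPowerSeries (Fin r) 𝒪) L.N :=
    Module.Free.chooseBasis (MvPowerSeries (Fin r) 𝒪) L.N
  -- `I ≤ ker ψ`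
  have hIker : I ≤ RingHom.ker L.ψ := by
    rw [hI, Ideal.span_le]
    rintro _ ⟨i, rfl⟩
    exact L.ψ_φ_X i
  -- `π` of a linear combination
  have hπsum : ∀ c : ι →₀ MvPowerSeries (Fin r) 𝒪,
      L.π (c.sum fun j a => a • e j) = c.sum fun j a => L.ψ a • L.π (e j) := by
    intro c
    rw [Finsupp.sum, map_sum, Finsupp.sum]
    exact Finset.sum_congr rfl fun j _ => L.π_smul _ _
  -- the index type is nonempty
  have hne : Nonempty ι := by
    by_contra hemp
    rw [not_nonempty_iff] at hemp
    obtain ⟨m, hm⟩ := exists_ne (0 : M)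
    obtain ⟨x, rfl⟩ := L.π_surjective m
    have hx : x = 0 := by
      have := e.repr.injective (a₁ := x) (a₂ := 0) (Subsingleton.elim _ _)
      exact this
    exact hm (by rw [hx, map_zero])
  obtain ⟨j₀⟩ := hne
  -- key: a combination mapping to zero has coefficients in `I`
  have hkey : ∀ c : ι →₀ MvPowerSeries (Fin r) 𝒪,
      L.π (c.sum fun j a => a • e j) = 0 → ∀ j, c j ∈ I := by
    intro c hc j
    have hmem := (L.ker_π _).1 hc
    have := repr_mem_of_mem_smul_top e I hmem j
    rwa [← Finsupp.linearCombination_apply, e.repr_linearCombination] at this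
  -- the candidate basis of `M`
  let v : ι → M := fun j => L.π (e j)
  have hli : LinearIndependent R v := by
    rw [linearIndependent_iff]
    intro l hl
    obtain ⟨c, rfl⟩ := Finsupp.mapRange_surjective (L.ψ : MvPowerSeries (Fin r) 𝒪 → R)
      (map_zero _) L.ψ_surjective l
    have h0 : L.π (c.sum fun j a => a • e j) = 0 := by
      rw [hπsum, ← hl, Finsupp.linearCombination_apply, Finsupp.sum_mapRange_index]
      intro j
      exact zero_smul _ _
    ext j
    have := hIker (hkey c h0 j)
    simpa [RingHom.mem_ker] using this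
  have hsp : ⊤ ≤ Submodule.span R (Set.range v) := by
    rintro m -
    obtain ⟨x, rfl⟩ := L.π_surjective m
    have hx : x = (e.repr x).sum fun j a => a • e j := by
      rw [← Finsupp.linearCombination_apply, e.linearCombination_repr]
    rw [hx, hπsum]
    exact Submodule.sum_mem _ fun j _ =>
      Submodule.smul_mem _ _ (Submodule.subset_span ⟨j, rfl⟩)
  let bM : Module.Basis ι R M := Module.Basis.mk hli hsp
  refine ⟨Module.Free.of_basis bM, ?_, ?_⟩
  · -- faithful
    rw [eq_bot_iff]
    intro a ha
    rw [Module.mem_annihilator] at ha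
    have h1 : a • bM j₀ = 0 := ha _
    have h2 := congrArg (fun y => bM.repr y j₀) h1
    simpa using h2
  · -- kernel of `ψ`
    refine le_antisymm ?_ hIker
    intro f hf
    rw [RingHom.mem_ker] at hf
    have h0 : L.π ((Finsupp.single j₀ f).sum fun j a => a • e j) = 0 := by
      rw [Finsupp.sum_single_index, L.π_smul, hf, zero_smul]
      exact zero_smul _ _
    have := hkey (Finsupp.single j₀ f) h0 j₀
    simpa using this

end Fermat.Agent.S57
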