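import Mathlib

set_option autoImplicit false

open IsLocalRing

namespace Fermat.Agent.S57

open MvPowerSeries in
/-- A multivariate power series in finitely many variables with zero constant coefficient
lies in the ideal generated by the variables. -/
theorem mem_span_range_X_of_constantCoeff_eq_zero {σ : Type*} [Fintype σ] {A : Type*} [CommRing A]
    (f : MvPowerSeries σ A) (hf : MvPowerSeries.constantCoeff f = 0) :
    f ∈ Ideal.span (Set.range fun i : σ => (MvPowerSeries.X i : MvPowerSeries σ A)) := by
  classical
  -- selection of an index in the support of a nonzero exponent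
  let sel : (σ →₀ ℕ) → Option σ := fun m =>
    if h : ∃ i, m i ≠ 0 then some (Classical.choose h) else none
  have hsel_some : ∀ (m : σ →₀ ℕ) (i : σ), sel m = some i → m i ≠ 0 := by
    intro m i h
    simp only [sel] at h
    split_ifs at h with hex
    · have := Classical.choose_spec hex
      simp only [Option.some.injEq] at h
      rwa [h] at this
  have hsel_none : ∀ m : σ →₀ ℕ, sel m = none → m = 0 := by
    intro m h
    simp only [sel] at h
    split_ifs at h with hex
    · ext i
      by_contra hi
      exact hex ⟨i, by simpa using hi⟩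
  let g : σ → MvPowerSeries σ A := fun i m =>
    if sel (m + Finsupp.single i 1) = some i then coeff (m + Finsupp.single i 1) f else 0
  have hg : ∀ i (m : σ →₀ ℕ), coeff m (g i) =
      if sel (m + Finsupp.single i 1) = some i then coeff (m + Finsupp.single i 1) f else 0 :=
    fun i m => rfl
  rw [Ideal.mem_span_range_iff_exists_fun]
  refine ⟨g, ?_⟩
  ext m
  rw [map_sum]
  have key : ∀ i, coeff m (g i * X i) = if sel m = some i then coeff m f else 0 := by
    intro i
    rw [X_def, coeff_mul_monomial, mul_one]
    by_cases hle : Finsupp.single i 1 ≤ m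
    · rw [if_pos hle, hg, tsub_add_cancel_of_le hle]
    · rw [if_neg hle]
      have : sel m ≠ some i := by
        intro h
        apply hle
        have := hsel_some m i h
        intro j
        by_cases hj : j = i
        · subst hj
          simp only [Finsupp.single_eq_same]
          exact Nat.one_le_iff_ne_zero.mpr this
        · simp [Ne.symm hj]
      rw [if_neg this]
  simp_rw [key]
  cases hs : sel m with
  | none =>
    have hm := hsel_none m hs
    subst hm
    simp only [reduceCtorEq, if_false, Finset.sum_const_zero]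
    rw [coeff_zero_eq_constantCoeff_apply, hf]
  | some i =>
    simp only [Option.some.injEq]
    rw [Finset.sum_ite_eq Finset.univ i]
    simp

/-- The maximal ideal of `𝒪⟦X₀, …, X_{r-1}⟧` (`𝒪` a DVR with uniformizer `ϖ`) is generated by
`X₀, …, X_{r-1}, ϖ`. -/
theorem ofList_X_C_eq_maximalIdeal {𝒪 : Type} [CommRing 𝒪] [IsDomain 𝒪]
    [IsDiscreteValuationRing 𝒪] (r : ℕ) {ϖ : 𝒪} (hϖ : Irreducible ϖ) :
    Ideal.ofList (List.ofFn (fun i : Fin r =>
        (MvPowerSeries.X i : MvPowerSeries (Fin r) 𝒪)) ++ [MvPowerSeries.C ϖ]) =
      maximalIdeal (MvPowerSeries (Fin r) 𝒪) := by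
  apply le_antisymm
  · rw [Ideal.ofList, Ideal.span_le]
    intro x hx
    simp only [List.mem_append, List.mem_ofFn, List.mem_singleton, Set.mem_ofPred_eq] at hx
    rw [SetLike.mem_coe, mem_maximalIdeal, mem_nonunits_iff,
      MvPowerSeries.isUnit_iff_constantCoeff]
    rcases hx with ⟨i, rfl⟩ | rfl
    · simp
    · simpa using hϖ.not_isUnit
  · intro f hf
    rw [mem_maximalIdeal, mem_nonunits_iff, MvPowerSeries.isUnit_iff_constantCoeff] at hf
    have hmem : MvPowerSeries.constantCoeff f ∈ maximalIdeal 𝒪 := hf
    rw [hϖ.maximalIdeal_eq, Ideal.mem_span_singleton] at hmem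
    obtain ⟨c, hc⟩ := hmem
    have h1 : f - MvPowerSeries.C (MvPowerSeries.constantCoeff f) ∈
        Ideal.span (Set.range fun i : Fin r => (MvPowerSeries.X i : MvPowerSeries (Fin r) 𝒪)) := by
      apply mem_span_range_X_of_constantCoeff_eq_zero
      simp
    have h2 : Ideal.span (Set.range fun i : Fin r =>
        (MvPowerSeries.X i : MvPowerSeries (Fin r) 𝒪)) ≤
        Ideal.ofList (List.ofFn (fun i : Fin r =>
          (MvPowerSeries.X i : MvPowerSeries (Fin r) 𝒪)) ++ [MvPowerSeries.C ϖ]) := by
      apply Ideal.span_mono
      rintro _ ⟨i, rfl⟩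
      simp
    have h3 : MvPowerSeries.C (MvPowerSeries.constantCoeff f) ∈
        Ideal.ofList (List.ofFn (fun i : Fin r =>
          (MvPowerSeries.X i : MvPowerSeries (Fin r) 𝒪)) ++ [MvPowerSeries.C ϖ]) := by
      rw [hc, map_mul]
      apply Ideal.mul_mem_right
      apply Ideal.subset_span
      simp
    have := Ideal.add_mem _ (h2 h1) h3
    simpa using this

end Fermat.Agent.S57
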