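import Mathlib
import Fermat.Prelude.Def_Algebra_PatchingDatum

/-!
# S57, piece (E): the patching module is finite and has a long regular sequence

Let `L : Algebra.PatchingLevel 𝒪 r R M ⊥` with `M` nontrivial and put `B = 𝒪⟦X₀, …, X_{r-1}⟧`.
Then `L.N` is a finite `B`-module and `[φ X₀, …, φ X_{r-1}, ϖ]` is an `L.N`-regular sequence
contained in the maximal ideal of `B` (`ϖ` a uniformiser of `𝒪`).

Main statements (all in namespace `Fermat.Agent.S57`):
* `isWeaklyRegular_X_append_C` : `X₀, …, X_{r-1}, a` is weakly regular on `A⟦X⟧` for a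
  non-zero-divisor `a` of `A`.
* `finite_N` : `Module.Finite B L.N`.
* `nontrivial_N`, `nontrivial_R`.
* `coordEquiv` : the `φ`-semilinear additive bijection `(Fin d → B) ≃+ L.N`.
* `exists_isRegular_patching` : existence of a regular sequence of length `r + 1` in the maximal
  ideal of `B` on `L.N`.
-/

set_option autoImplicit false

open MvPowerSeries RingTheory.Sequence Pointwise IsLocalRing

namespace Fermat.Agent.S57

section PowerSeriesRegular

variable {σ : Type*} {A : Type*} [CommRing A]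

/-- The ideal of power series all of whose monomials involve some variable in `T`:
`f` lies in it iff every coefficient at a monomial not involving any variable of `T` vanishes. -/
def varIdeal (T : Set σ) : Ideal (MvPowerSeries σ A) where
  carrier := {f | ∀ m : σ →₀ ℕ, (∀ s ∈ T, m s = 0) → coeff m f = 0}
  zero_mem' := by intro m _; simp
  add_mem' := by
    intro f g hf hg m hm
    simp [hf m hm, hg m hm]
  smul_mem' := by
    classical
    intro c f hf m hm
    rw [smul_eq_mul, coeff_mul]
    refine Finset.sum_eq_zero ?_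
    rintro ⟨a, b⟩ hab
    rw [Finset.HasAntidiagonal.mem_antidiagonal] at hab
    have hb : ∀ s ∈ T, b s = 0 := by
      intro s hs
      have := hm s hs
      rw [← hab] at this
      simp only [Finsupp.add_apply] at this
      omega
    simp [hf b hb]

lemma mem_varIdeal {T : Set σ} {f : MvPowerSeries σ A} :
    f ∈ varIdeal (A := A) T ↔ ∀ m : σ →₀ ℕ, (∀ s ∈ T, m s = 0) → coeff m f = 0 := Iff.rfl

lemma X_mem_varIdeal {T : Set σ} {s : σ} (hs : s ∈ T) :
    (X s : MvPowerSeries σ A) ∈ varIdeal (A := A) T := by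
  classical
  intro m hm
  rw [coeff_X, if_neg]
  rintro rfl
  have := hm s hs
  simp at this

lemma coeff_X_mul_add_single (s : σ) (m : σ →₀ ℕ) (f : MvPowerSeries σ A) :
    coeff (m + Finsupp.single s 1) (X s * f) = coeff m f := by
  rw [add_comm, X_def, coeff_add_monomial_mul, one_mul]

lemma varIdeal_insert_le (T : Set σ) (t : σ) :
    varIdeal (A := A) (insert t T) ≤ varIdeal (A := A) T ⊔ Ideal.span {X t} := by
  classical
  intro f hf
  -- `g` is `f` divided by `X t` (dropping the monomials not divisible by `X t`)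
  set g : MvPowerSeries σ A := fun m => coeff (m + Finsupp.single t 1) f with hg
  have hfg : f - X t * g ∈ varIdeal (A := A) T := by
    intro m hm
    by_cases hmt : m t = 0
    · have h1 : coeff m f = 0 := hf m (by
        intro s hs
        rcases hs with rfl | hs
        · exact hmt
        · exact hm s hs)
      have h2 : coeff m (X t * g) = 0 :=
        (X_dvd_iff.mp ⟨g, rfl⟩) m hmt
      simp [h1, h2]
    · have hm' : m = (m - Finsupp.single t 1) + Finsupp.single t 1 := by
        ext u
        by_cases hut : u = t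
        · subst hut; simp; omega
        · simp [Ne.symm hut]
      have h2 : coeff m (X t * g) = coeff m f := by
        conv_lhs => rw [hm']
        rw [coeff_X_mul_add_single]
        show coeff (m - Finsupp.single t 1 + Finsupp.single t 1) f = _
        rw [← hm']
      simp [h2]
  have : f = (f - X t * g) + X t * g := by ring
  rw [this]
  exact Submodule.add_mem_sup hfg (Ideal.mul_mem_right _ _ (Ideal.subset_span rfl))

lemma varIdeal_mono {T T' : Set σ} (h : T ⊆ T') : varIdeal (A := A) T ≤ varIdeal (A := A) T' :=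
  fun _ hf m hm => hf m fun s hs => hm s (h hs)

lemma varIdeal_insert (T : Set σ) (t : σ) :
    varIdeal (A := A) (insert t T) = varIdeal (A := A) T ⊔ Ideal.span {X t} := by
  refine le_antisymm (varIdeal_insert_le T t) (sup_le (varIdeal_mono (Set.subset_insert t T)) ?_)
  rw [Ideal.span_singleton_le_iff_mem]
  exact X_mem_varIdeal (Set.mem_insert t T)

lemma varIdeal_empty : varIdeal (A := A) (∅ : Set σ) = ⊥ := by
  rw [eq_bot_iff]
  intro f hf
  rw [Ideal.mem_bot]
  ext m
  simpa using hf m (by simp)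

lemma isSMulRegular_X_quot_varIdeal {T : Set σ} {t : σ} (ht : t ∉ T) :
    IsSMulRegular (MvPowerSeries σ A ⧸ varIdeal (A := A) T) (X t : MvPowerSeries σ A) := by
  rw [isSMulRegular_quotient_iff_mem_of_smul_mem]
  intro f hf m hm
  rw [← coeff_X_mul_add_single t m f]
  refine hf _ ?_
  intro s hs
  have hst : t ≠ s := fun h => ht (h ▸ hs)
  simp [hm s hs, hst]

lemma isSMulRegular_C_quot_varIdeal_univ {a : A} (ha : IsSMulRegular A a) :
    IsSMulRegular (MvPowerSeries σ A ⧸ varIdeal (A := A) (Set.univ : Set σ))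
      (C a : MvPowerSeries σ A) := by
  rw [isSMulRegular_quotient_iff_mem_of_smul_mem]
  intro f hf m hm
  have h0 := hf m hm
  rw [smul_eq_mul, coeff_C_mul] at h0
  exact ha (by simpa using h0)

end PowerSeriesRegular

section QuotQuot

variable {R M : Type*} [CommRing R] [AddCommGroup M] [Module R M]

lemma smul_top_quot_eq_map (S : Submodule R M) (x : R) :
    x • (⊤ : Submodule R (M ⧸ S)) = Submodule.map S.mkQ (S ⊔ x • ⊤) := by
  rw [Submodule.map_sup, Submodule.mkQ_map_self, bot_sup_eq, Submodule.map_pointwise_smul,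
    Submodule.map_top, Submodule.range_mkQ]

/-- `(M/S)/x(M/S) ≃ M/(S + xM)`. -/
noncomputable def quotSMulTopQuotEquiv (S : Submodule R M) (x : R) :
    QuotSMulTop x (M ⧸ S) ≃ₗ[R] M ⧸ (S ⊔ x • (⊤ : Submodule R M)) :=
  (Submodule.quotEquivOfEq _ _ (smul_top_quot_eq_map S x)).trans
    (Submodule.quotientQuotientEquivQuotient S (S ⊔ x • ⊤) le_sup_left)

end QuotQuot

section PowerSeriesRegular

variable {σ : Type*} {A : Type*} [CommRing A]

lemma varIdeal_insert' (T : Set σ) (t : σ) :
    (varIdeal (A := A) (insert t T) : Submodule (MvPowerSeries σ A) (MvPowerSeries σ A)) =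
      varIdeal (A := A) T ⊔ (X t : MvPowerSeries σ A) • ⊤ := by
  rw [varIdeal_insert, ← Submodule.ideal_span_singleton_smul, smul_eq_mul, Ideal.mul_top]

theorem isWeaklyRegular_quot_varIdeal {a : A} (ha : IsSMulRegular A a) (l : List σ) :
    ∀ T : Set σ, l.Nodup → (∀ s ∈ l, s ∉ T) → (∀ s, s ∈ T ∨ s ∈ l) →
      IsWeaklyRegular (MvPowerSeries σ A ⧸ varIdeal (A := A) T)
        (l.map (fun s => (X s : MvPowerSeries σ A)) ++ [C a]) := by
  induction l with
  | nil =>
    intro T _ _ hT
    have hT' : T = Set.univ := by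
      ext s; simpa using hT s
    subst hT'
    simpa [isWeaklyRegular_singleton_iff] using isSMulRegular_C_quot_varIdeal_univ ha
  | cons t l ih =>
    intro T hnd hdisj hcov
    rw [List.map_cons, List.cons_append, isWeaklyRegular_cons_iff]
    refine ⟨isSMulRegular_X_quot_varIdeal (hdisj t List.mem_cons_self), ?_⟩
    have e := (quotSMulTopQuotEquiv (varIdeal (A := A) T) (X t : MvPowerSeries σ A)).trans
      (Submodule.quotEquivOfEq _ _ (varIdeal_insert' T t).symm)
    rw [e.isWeaklyRegular_congr]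
    refine ih (insert t T) (List.nodup_cons.mp hnd).2 ?_ ?_
    · intro s hs hsT
      rcases hsT with rfl | hsT
      · exact (List.nodup_cons.mp hnd).1 hs
      · exact hdisj s (List.mem_cons_of_mem _ hs) hsT
    · intro s
      rcases hcov s with h | h
      · exact Or.inl (Set.mem_insert_of_mem _ h)
      · rcases List.mem_cons.mp h with rfl | h
        · exact Or.inl (Set.mem_insert _ _)
        · exact Or.inr h

/-- `X₀, …, X_{r-1}, a` is a weakly regular sequence on `A⟦X₀, …, X_{r-1}⟧` whenever `a` is a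
non-zero-divisor of `A`. -/
theorem isWeaklyRegular_X_append_C (r : ℕ) {a : A} (ha : IsSMulRegular A a) :
    IsWeaklyRegular (MvPowerSeries (Fin r) A)
      ((List.finRange r).map (fun s => (X s : MvPowerSeries (Fin r) A)) ++ [C a]) := by
  have h := isWeaklyRegular_quot_varIdeal (σ := Fin r) ha (List.finRange r) ∅
    (List.nodup_finRange r) (by simp) (by simp)
  have e : (MvPowerSeries (Fin r) A ⧸ varIdeal (A := A) (∅ : Set (Fin r))) ≃ₗ[MvPowerSeries (Fin r) A]
      MvPowerSeries (Fin r) A :=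
    (Submodule.quotEquivOfEq _ _ varIdeal_empty).trans (Submodule.quotEquivOfEqBot ⊥ rfl)
  exact (e.isWeaklyRegular_congr _).mp h

end PowerSeriesRegular

section Patching

variable {𝒪 : Type} [CommRing 𝒪]
  {r : ℕ} {R : Type} [CommRing R] [Algebra 𝒪 R]
  {M : Type} [AddCommGroup M] [Module R M]
  (L : Algebra.PatchingLevel 𝒪 r R M ⊥)

omit [Algebra 𝒪 R] in
lemma nontrivial_R [Nontrivial M] : Nontrivial R := by
  by_contra h
  rw [not_nontrivial_iff_subsingleton] at h
  have : Subsingleton M := Module.subsingleton R M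
  exact not_subsingleton M this

lemma nontrivial_N [Nontrivial M] : Nontrivial L.N := by
  obtain ⟨x, y, hxy⟩ := exists_pair_ne M
  obtain ⟨x', rfl⟩ := L.π_surjective x
  obtain ⟨y', rfl⟩ := L.π_surjective y
  exact ⟨x', y', fun h => hxy (h ▸ rfl)⟩

/-- The `φ`-semilinear additive bijection `(Fin d → 𝒪⟦X⟧) ≃ N`. -/
noncomputable def coordHom : (Fin L.d → MvPowerSeries (Fin r) 𝒪) →+ L.N where
  toFun := fun c => ∑ i, L.φ (c i) • L.b i
  map_zero' := by simp
  map_add' := by
    intro c c'
    simp [add_smul, Finset.sum_add_distrib]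

lemma coordHom_bijective : Function.Bijective (coordHom L) := by
  constructor
  · rw [injective_iff_map_eq_zero]
    intro c hc
    have := (L.b_rel c).mp hc
    ext1 i
    simpa using this i
  · intro x
    obtain ⟨c, hc⟩ := L.b_span x
    exact ⟨c, hc.symm⟩

noncomputable def coordEquiv : (Fin L.d → MvPowerSeries (Fin r) 𝒪) ≃+ L.N :=
  AddEquiv.ofBijective (coordHom L) (coordHom_bijective L)

lemma coordEquiv_apply (c : Fin L.d → MvPowerSeries (Fin r) 𝒪) :
    coordEquiv L c = ∑ i, L.φ (c i) • L.b i := rfl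

lemma coordEquiv_smul (f : MvPowerSeries (Fin r) 𝒪) (c : Fin L.d → MvPowerSeries (Fin r) 𝒪) :
    coordEquiv L (f • c) = L.φ f • coordEquiv L c := by
  simp [coordEquiv_apply, Finset.smul_sum, mul_smul]

instance finite_N : Module.Finite (MvPowerSeries (Fin r) 𝒪) L.N := by
  classical
  refine ⟨⟨Finset.univ.image L.b, ?_⟩⟩
  rw [eq_top_iff]
  intro x _
  obtain ⟨c, rfl⟩ := L.b_span x
  refine Submodule.sum_mem _ fun i _ => Submodule.smul_mem _ _ (Submodule.subset_span ?_)
  simp

lemma φ_X_mem_maximalIdeal [IsLocalRing 𝒪] [Nontrivial M] (i : Fin r) :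
    L.φ (X i) ∈ maximalIdeal (MvPowerSeries (Fin r) 𝒪) := by
  have := nontrivial_R (R := R) (M := M)
  rw [mem_maximalIdeal, mem_nonunits_iff]
  intro hu
  have h1 : IsUnit (L.ψ (L.φ (X i))) := hu.map L.ψ
  rw [L.ψ_φ_X i] at h1
  exact not_isUnit_zero h1

lemma φ_C (a : 𝒪) : L.φ (C a) = C a := by
  have : (C a : MvPowerSeries (Fin r) 𝒪) = algebraMap 𝒪 _ a := rfl
  rw [this, L.φ.commutes]

lemma C_mem_maximalIdeal [IsLocalRing 𝒪] {a : 𝒪} (ha : a ∈ maximalIdeal 𝒪) :
    (C a : MvPowerSeries (Fin r) 𝒪) ∈ maximalIdeal (MvPowerSeries (Fin r) 𝒪) := by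
  rw [mem_maximalIdeal, mem_nonunits_iff] at ha ⊢
  intro hu
  apply ha
  have := hu.map (constantCoeff (σ := Fin r) (R := 𝒪))
  simpa using this

/-- The regular sequence used for the patching descent. -/
noncomputable def patchSeq (a : 𝒪) : List (MvPowerSeries (Fin r) 𝒪) :=
  (List.finRange r).map (fun s => L.φ (X s)) ++ [C a]

lemma length_patchSeq (a : 𝒪) : (patchSeq L a).length = r + 1 := by
  simp [patchSeq]

lemma patchSeq_mem_maximalIdeal [IsLocalRing 𝒪] [Nontrivial M] {a : 𝒪} (ha : a ∈ maximalIdeal 𝒪) :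
    ∀ x ∈ patchSeq L a, x ∈ maximalIdeal (MvPowerSeries (Fin r) 𝒪) := by
  intro x hx
  rw [patchSeq, List.mem_append, List.mem_map, List.mem_singleton] at hx
  rcases hx with ⟨s, -, rfl⟩ | rfl
  · exact φ_X_mem_maximalIdeal L s
  · exact C_mem_maximalIdeal ha

theorem isWeaklyRegular_patchSeq {a : 𝒪} (ha : IsSMulRegular 𝒪 a) :
    IsWeaklyRegular L.N (patchSeq L a) := by
  have h1 := isWeaklyRegular_X_append_C (A := 𝒪) r ha
  have h2 : IsWeaklyRegular (Fin L.d → MvPowerSeries (Fin r) 𝒪)
      ((List.finRange r).map (fun s => (X s : MvPowerSeries (Fin r) 𝒪)) ++ [C a]) := by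
    have h3 := h1.isWeaklyRegular_rTensor (M₂ := Fin L.d → MvPowerSeries (Fin r) 𝒪)
    exact ((TensorProduct.lid (MvPowerSeries (Fin r) 𝒪)
      (Fin L.d → MvPowerSeries (Fin r) 𝒪)).isWeaklyRegular_congr _).mp h3
  refine (AddEquiv.isWeaklyRegular_congr (e := coordEquiv L) ?_).mp h2
  rw [patchSeq]
  refine List.rel_append ?_ ?_
  · rw [List.forall₂_map_left_iff, List.forall₂_map_right_iff, List.forall₂_same]
    intro s _ c
    exact coordEquiv_smul L _ c
  · refine List.Forall₂.cons ?_ List.Forall₂.nil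
    intro c
    rw [coordEquiv_smul, φ_C]

theorem isRegular_patchSeq [IsDomain 𝒪] [IsLocalRing 𝒪] [Nontrivial M] {a : 𝒪} (ha0 : a ≠ 0)
    (ha : a ∈ maximalIdeal 𝒪) : IsRegular L.N (patchSeq L a) := by
  have := nontrivial_N L
  refine IsRegular.of_isWeaklyRegular_of_mem_maximalIdeal L.N (patchSeq_mem_maximalIdeal L ha)
    (isWeaklyRegular_patchSeq L ?_)
  exact IsSMulRegular.of_ne_zero ha0 -- a ≠ 0 in a domain

/-- **Piece (E).** For a patching level with trivial relation ideal and nontrivial `M`, the module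
`N` is finite over `B = 𝒪⟦X₁, …, X_r⟧` and admits a regular sequence of length `r + 1` inside the
maximal ideal of `B`. -/
theorem exists_isRegular_patching [IsDomain 𝒪] [IsDiscreteValuationRing 𝒪] [Nontrivial M] :
    ∃ rs : List (MvPowerSeries (Fin r) 𝒪), rs.length = r + 1 ∧
      (∀ x ∈ rs, x ∈ maximalIdeal (MvPowerSeries (Fin r) 𝒪)) ∧ IsRegular L.N rs := by
  obtain ⟨ϖ, hϖ⟩ := IsDiscreteValuationRing.exists_irreducible 𝒪
  have hmem : ϖ ∈ maximalIdeal 𝒪 := by
    rw [mem_maximalIdeal, mem_nonunits_iff]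
    exact hϖ.not_isUnit
  exact ⟨patchSeq L ϖ, length_patchSeq L ϖ, patchSeq_mem_maximalIdeal L hmem,
    isRegular_patchSeq L hϖ.ne_zero hmem⟩

end Patching

end Fermat.Agent.S57

namespace Fermat.Agent.S57

/-- Piece (E2) in the exact shape requested for the final assembly. -/
theorem patching_regular {𝒪 : Type} [CommRing 𝒪] [IsDomain 𝒪] [IsDiscreteValuationRing 𝒪]
    {r : ℕ} {R : Type} [CommRing R] [Algebra 𝒪 R] {M : Type} [AddCommGroup M] [Module R M]
    [Nontrivial M] (L : Algebra.PatchingLevel 𝒪 r R M ⊥) {ϖ : 𝒪} (hϖ : Irreducible ϖ) :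
    Module.Finite (MvPowerSeries (Fin r) 𝒪) L.N ∧
      IsWeaklyRegular L.N
        (List.ofFn (fun i : Fin r => L.φ (MvPowerSeries.X i)) ++ [MvPowerSeries.C ϖ]) ∧
      (∀ z ∈ (List.ofFn (fun i : Fin r => L.φ (MvPowerSeries.X i)) ++ [MvPowerSeries.C ϖ]),
        z ∈ maximalIdeal (MvPowerSeries (Fin r) 𝒪)) := by
  have hmem : ϖ ∈ maximalIdeal 𝒪 := by
    rw [mem_maximalIdeal, mem_nonunits_iff]
    exact hϖ.not_isUnit
  have hlist : List.ofFn (fun i : Fin r => L.φ (MvPowerSeries.X i)) ++ [MvPowerSeries.C ϖ] =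
      patchSeq L ϖ := by
    rw [patchSeq, List.ofFn_eq_map]
  rw [hlist]
  exact ⟨finite_N L, isWeaklyRegular_patchSeq L (IsSMulRegular.of_ne_zero hϖ.ne_zero),
    patchSeq_mem_maximalIdeal L hmem⟩

end Fermat.Agent.S57
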