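import Mathlib.RingTheory.Depth.Rees
import Mathlib.RingTheory.Regular.Free

/-!
# Depth drops by at most one modulo a regular element

If a finitely generated module `N` over a Noetherian ring `R` admits an `N`-regular sequence of
length `n + 1` inside an ideal `I`, and `x ∈ I` is `N`-regular, then `N ⧸ xN` admits a regular
sequence of length `n` inside `I`.  (Rees theorem plus the long exact sequence of `Ext`.)
-/

set_option autoImplicit false

open RingTheory.Sequence CategoryTheory Abelian Pointwise

namespace Fermat.Agent.S57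

universe u

variable {R : Type u} [CommRing R]

/-- If `I N ≠ N` and `x ∈ I` then `I (N/xN) ≠ N/xN`. -/
theorem smul_top_quotSMulTop_ne_top {N : Type*} [AddCommGroup N] [Module R N]
    {I : Ideal R} {x : R} (hx : x ∈ I) (hI : I • (⊤ : Submodule R N) ≠ ⊤) :
    I • (⊤ : Submodule R (QuotSMulTop x N)) ≠ ⊤ := by
  by_contra eq
  absurd congrArg (Submodule.comap (Submodule.mkQ _)) eq
  simpa [Submodule.comap_smul_top_of_surjective I _ (Submodule.mkQ_surjective _),
    Submodule.smul_mono_left ((Ideal.span_singleton_le_iff_mem I).mpr hx),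
    ← Submodule.ideal_span_singleton_smul] using hI

/-- **Depth drop.** A regular sequence of length `n + 1` in `I` on `N`, together with an
`N`-regular element `x ∈ I`, yields a regular sequence of length `n` in `I` on `N ⧸ xN`. -/
theorem exists_isRegular_quotSMulTop [IsNoetherianRing R] (I : Ideal R)
    {N : Type u} [AddCommGroup N] [Module R N] [Module.Finite R N]
    (hI : I • (⊤ : Submodule R N) ≠ ⊤) (n : ℕ) (rs : List R) (hlen : rs.length = n + 1)
    (hmem : ∀ r ∈ rs, r ∈ I) (hreg : IsRegular N rs) {x : R} (hx : x ∈ I)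
    (hxreg : IsSMulRegular N x) :
    ∃ rs2 : List R, rs2.length = n ∧ (∀ r ∈ rs2, r ∈ I) ∧ IsRegular (QuotSMulTop x N) rs2 := by
  let M : ModuleCat.{u} R := ModuleCat.of R N
  let K : ModuleCat.{u} R := ModuleCat.of R (Shrink.{u} (R ⧸ I))
  have suppK : Module.support R (Shrink.{u} (R ⧸ I)) = PrimeSpectrum.zeroLocus I := by
    rw [(Shrink.linearEquiv R _).support_eq, Module.support_eq_zeroLocus,
      Ideal.annihilator_quotient]
  have : Module.Finite R K := Module.Finite.equiv (Shrink.linearEquiv R (R ⧸ I)).symm
  have : Module.Finite R M := inferInstanceAs (Module.Finite R N)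
  have h_ext : ∀ i < n + 1, Subsingleton (Ext K M i) := by
    intro i hi
    exact ModuleCat.subsingleton_ext_of_exists_isRegular I K suppK.subset M
      (lt_top_iff_ne_top.mpr hI) rs hmem hreg i (hlen ▸ hi)
  have hxM : IsSMulRegular M x := hxreg
  have h_ext' : ∀ i < n, Subsingleton (Ext K (ModuleCat.of R (QuotSMulTop x M)) i) := by
    intro i hi
    have zero1 := AddCommGrpCat.isZero_of_iff_subsingleton.mpr (h_ext i (by omega))
    have zero2 := AddCommGrpCat.isZero_of_iff_subsingleton.mpr (h_ext (i + 1) (by omega))
    exact AddCommGrpCat.subsingleton_of_isZero <| ShortComplex.Exact.isZero_of_both_zeros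
      ((Ext.covariant_sequence_exact₃' K hxM.smulShortComplex_shortExact) i (i + 1) rfl)
      (zero1.eq_zero_of_src _) (zero2.eq_zero_of_tgt _)
  have : Module.Finite R (ModuleCat.of R (QuotSMulTop x M)) :=
    inferInstanceAs (Module.Finite R (QuotSMulTop x N))
  exact ModuleCat.exists_isRegular_of_exists_subsingleton_ext I n
    (ModuleCat.of R (QuotSMulTop x M))
    (lt_top_iff_ne_top.mpr (smul_top_quotSMulTop_ne_top hx hI)) K suppK h_ext'

end Fermat.Agent.S57
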