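import Mathlib.RingTheory.Regular.Free
import Mathlib.RingTheory.KrullDimension.NonZeroDivisors
import Mathlib.RingTheory.Ideal.KrullsHeightTheorem
import Mathlib.RingTheory.Ideal.AssociatedPrime.Basic
import Mathlib.RingTheory.LocalRing.Quotient
import Fermat.Agent.S57.DepthDrop

/-!
# Maximal Cohen-Macaulay modules over regular local rings are free

Theorem (C) of the S57 decomposition.  Let `B` be a Noetherian local ring whose maximal ideal is
generated by `n` elements, and let `N` be a finitely generated `B`-module admitting a weakly
regular sequence of length `n` inside the maximal ideal.  Then `N` is free.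
-/

set_option autoImplicit false

open RingTheory.Sequence IsLocalRing Pointwise

namespace Fermat.Agent.S57

universe u

/-- The statement of the Ass-chain lemma (A) of the S57 decomposition, used as a hypothesis here so
that this file does not depend on its proof (`AssChain.lean`):  if `zs` is a weakly regular
sequence on `N` inside the maximal ideal and `P` is an associated prime of `N`, then
`zs.length ≤ dim B ⧸ P`. -/
def AssChainStatement : Prop :=
  ∀ (B : Type u) [CommRing B] [IsLocalRing B] [IsNoetherianRing B]
    (N : Type u) [AddCommGroup N] [Module B N] [Module.Finite B N]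
    (zs : List B), IsWeaklyRegular N zs → (∀ z ∈ zs, z ∈ maximalIdeal B) →
    ∀ P : Ideal B, P ∈ associatedPrimes B N → (zs.length : WithBot ℕ∞) ≤ ringKrullDim (B ⧸ P)

section quotient

variable {B : Type u} [CommRing B] [IsLocalRing B]

/-- The quotient of a local ring by an element of the maximal ideal is nontrivial. -/
theorem RegularFree.nontrivial_quot {x : B} (hx : x ∈ maximalIdeal B) :
    Nontrivial (B ⧸ Ideal.span {x}) := by
  rw [Ideal.Quotient.nontrivial_iff]
  intro h
  rw [Ideal.span_singleton_eq_top] at h
  exact hx h

/-- The quotient of a local ring by an element of the maximal ideal is local. -/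
theorem RegularFree.isLocalRing_quot {x : B} (hx : x ∈ maximalIdeal B) :
    IsLocalRing (B ⧸ Ideal.span {x}) :=
  haveI := RegularFree.nontrivial_quot hx
  IsLocalRing.of_surjective' (Ideal.Quotient.mk (Ideal.span {x})) Ideal.Quotient.mk_surjective

/-- If `x :: xs` generates the maximal ideal of `B` then the image of `xs` generates the maximal
ideal of `B ⧸ (x)`. -/
theorem RegularFree.ofList_map_mk_eq {x : B} {xs : List B}
    (hxs : Ideal.ofList (x :: xs) = maximalIdeal B) [IsLocalRing (B ⧸ Ideal.span {x})] :
    Ideal.ofList (xs.map (Ideal.Quotient.mk (Ideal.span {x}))) =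
      maximalIdeal (B ⧸ Ideal.span {x}) := by
  rw [← map_maximalIdeal_of_surjective (Ideal.Quotient.mk (Ideal.span {x}))
    Ideal.Quotient.mk_surjective, ← hxs, Ideal.ofList_cons, Ideal.map_sup, Ideal.map_ofList,
    Ideal.map_span, Set.image_singleton]
  have : (Ideal.Quotient.mk (Ideal.span {x})) x = 0 :=
    Ideal.Quotient.eq_zero_iff_mem.mpr (Ideal.mem_span_singleton_self x)
  rw [this]
  simp

/-- The Krull dimension of a Noetherian local ring whose maximal ideal is generated by a list
is at most the length of the list. -/
theorem RegularFree.ringKrullDim_le_length [IsNoetherianRing B] {xs : List B}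
    (hxs : Ideal.ofList xs = maximalIdeal B) : ringKrullDim B ≤ (xs.length : WithBot ℕ∞) := by
  refine (ringKrullDim_le_spanFinrank_maximalIdeal B).trans ?_
  rw [← hxs]
  have hfin : {r | r ∈ xs}.Finite := List.finite_toSet xs
  have h1 := Submodule.spanFinrank_span_le_ncard_of_finite (R := B) hfin
  have h2 : {r | r ∈ xs}.ncard ≤ xs.length := by
    classical
    have : {r | r ∈ xs} = (xs.toFinset : Set B) := by ext; simp
    rw [this, Set.ncard_coe_finset]
    exact List.toFinset_card_le xs
  exact_mod_cast h1.trans h2

end quotient

/-- In a Noetherian local ring `B` whose maximal ideal is generated by `x :: xs`, the element `x`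
is regular on every finitely generated module `N` admitting a weakly regular sequence of length
`xs.length + 1` inside the maximal ideal. -/
theorem RegularFree.isSMulRegular_head (hA : AssChainStatement.{u})
    {B : Type u} [CommRing B] [IsLocalRing B] [IsNoetherianRing B] {x : B} {xs : List B}
    (hxs : Ideal.ofList (x :: xs) = maximalIdeal B)
    {N : Type u} [AddCommGroup N] [Module B N] [Module.Finite B N] (zs : List B)
    (hlen : zs.length = xs.length + 1) (hmem : ∀ z ∈ zs, z ∈ maximalIdeal B)
    (hreg : IsWeaklyRegular N zs) : IsSMulRegular N x := by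
  by_contra hx
  have hxm : x ∈ maximalIdeal B := by
    rw [← hxs]
    exact Ideal.subset_span (by simp)
  have hmemU : x ∈ ⋃ p ∈ associatedPrimes B N, (p : Set B) := by
    rw [biUnion_associatedPrimes_eq_compl_regular]
    exact hx
  simp only [Set.mem_iUnion, SetLike.mem_coe, exists_prop] at hmemU
  obtain ⟨P, hP, hxP⟩ := hmemU
  have h1 := hA B N zs hreg hmem P hP
  have := RegularFree.isLocalRing_quot hxm
  have hle : Ideal.span {x} ≤ P := (Ideal.span_singleton_le_iff_mem P).mpr hxP
  have h2 : ringKrullDim (B ⧸ P) ≤ ringKrullDim (B ⧸ Ideal.span {x}) :=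
    ringKrullDim_le_of_surjective (Ideal.Quotient.factor hle) (Ideal.Quotient.factor_surjective hle)
  have h3 : ringKrullDim (B ⧸ Ideal.span {x}) ≤
      ((xs.map (Ideal.Quotient.mk (Ideal.span {x}))).length : WithBot ℕ∞) :=
    RegularFree.ringKrullDim_le_length (RegularFree.ofList_map_mk_eq hxs)
  rw [List.length_map] at h3
  have h4 := h1.trans (h2.trans h3)
  rw [hlen] at h4
  have h5 : (xs.length + 1 : ℕ) ≤ xs.length := by exact_mod_cast h4
  omega

/-- Auxiliary form of the main theorem, set up for induction on the number of generators of the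
maximal ideal. -/
theorem RegularFree.free_aux (hA : AssChainStatement.{u}) (n : ℕ) : ∀ (B : Type u) [CommRing B] [IsLocalRing B] [IsNoetherianRing B]
    (xs : List B), xs.length = n → Ideal.ofList xs = maximalIdeal B →
    ∀ (N : Type u) [AddCommGroup N] [Module B N] [Module.Finite B N] (zs : List B),
    zs.length = n → (∀ z ∈ zs, z ∈ maximalIdeal B) → IsWeaklyRegular N zs →
    Module.Free B N := by
  induction n with
  | zero =>
    intro B _ _ _ xs hlen hxs N _ _ _ zs _ _ _
    have hnil : xs = [] := List.eq_nil_of_length_eq_zero hlen
    subst hnil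
    rw [Ideal.ofList_nil] at hxs
    have hfield : IsField B := (IsLocalRing.isField_iff_maximalIdeal_eq).mpr hxs.symm
    let := hfield.toField
    exact Module.Free.of_divisionRing B N
  | succ n ih =>
    intro B _ _ _ xs hlen hxs N _ _ _ zs hzlen hmem hreg
    obtain ⟨x, xs', rfl⟩ : ∃ x xs', xs = x :: xs' := by
      cases xs with
      | nil => simp at hlen
      | cons x xs' => exact ⟨x, xs', rfl⟩
    have hlen' : xs'.length = n := by simpa using hlen
    rcases subsingleton_or_nontrivial N with hN | hN
    · exact Module.Free.of_subsingleton B N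
    have hxm : x ∈ maximalIdeal B := by
      rw [← hxs]
      exact Ideal.subset_span (by simp)
    -- `x` is `N`-regular
    have hxreg : IsSMulRegular N x :=
      RegularFree.isSMulRegular_head hA hxs zs (by rw [hzlen, hlen']) hmem hreg
    -- depth drop
    have hzreg : IsRegular N zs := IsRegular.of_isWeaklyRegular_of_mem_maximalIdeal N hmem hreg
    have hI : maximalIdeal B • (⊤ : Submodule B N) ≠ ⊤ := by
      intro h
      have := Submodule.eq_bot_of_le_smul_of_le_jacobson_bot (maximalIdeal B) (⊤ : Submodule B N)
        Module.Finite.fg_top h.ge (IsLocalRing.maximalIdeal_le_jacobson ⊥)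
      exact top_ne_bot this
    obtain ⟨rs, hrslen, hrsmem, hrsreg⟩ :=
      exists_isRegular_quotSMulTop (maximalIdeal B) hI n zs hzlen hmem hzreg hxm hxreg
    -- pass to the quotient ring
    have := RegularFree.isLocalRing_quot hxm
    have hfin : Module.Finite (B ⧸ Ideal.span {x}) (QuotSMulTop x N) :=
      Module.Finite.of_restrictScalars_finite B (B ⧸ Ideal.span {x}) (QuotSMulTop x N)
    have hfree : Module.Free (B ⧸ Ideal.span {x}) (QuotSMulTop x N) := by
      refine ih (B ⧸ Ideal.span {x}) (xs'.map (Ideal.Quotient.mk (Ideal.span {x})))
        (by rw [List.length_map, hlen']) (RegularFree.ofList_map_mk_eq hxs) (QuotSMulTop x N)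
        (rs.map (algebraMap B (B ⧸ Ideal.span {x}))) (by rw [List.length_map, hrslen]) ?_ ?_
      · intro z hz
        obtain ⟨r, hr, rfl⟩ := List.mem_map.mp hz
        have hloc : IsLocalHom (algebraMap B (B ⧸ Ideal.span {x})) :=
          IsLocalHom.of_surjective _ Ideal.Quotient.mk_surjective
        exact map_maximalIdeal_le (algebraMap B (B ⧸ Ideal.span {x}))
          (Ideal.mem_map_of_mem _ (hrsmem r hr))
      · exact (isWeaklyRegular_map_algebraMap_iff (B ⧸ Ideal.span {x}) (QuotSMulTop x N) rs).mpr
          hrsreg.toIsWeaklyRegular
    have hfp : Module.FinitePresentation B N := Module.finitePresentation_of_finite B N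
    exact (Module.free_quotSMulTop_iff_free B N
      (by rw [IsLocalRing.jacobson_eq_maximalIdeal ⊥ bot_ne_top]; exact hxm) hxreg).mp hfree

/-- **Maximal Cohen-Macaulay modules over regular local rings are free** (modulo the Ass-chain
lemma (A), passed as the hypothesis `hA`).  Let `B` be a Noetherian local ring whose maximal ideal
is generated by the list `xs`, and `N` a finitely generated `B`-module with a weakly regular
sequence `zs` of the same length inside the maximal ideal.  Then `N` is free over `B`. -/
theorem free_of_assChainStatement (hA : AssChainStatement.{u})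
    {B : Type u} [CommRing B] [IsLocalRing B] [IsNoetherianRing B] (xs : List B)
    (hgen : Ideal.ofList xs = maximalIdeal B)
    {N : Type u} [AddCommGroup N] [Module B N] [Module.Finite B N] (zs : List B)
    (hzs : IsWeaklyRegular N zs) (hmem : ∀ z ∈ zs, z ∈ maximalIdeal B)
    (hlen : zs.length = xs.length) : Module.Free B N :=
  RegularFree.free_aux hA xs.length B xs rfl hgen N zs hlen hmem hzs

end Fermat.Agent.S57
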