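import Mathlib

/-!
# The sequence `X 0, …, X (r-1), ϖ` is regular on `𝒪⟦X 0, …, X (r-1)⟧`
-/

set_option autoImplicit false

open RingTheory.Sequence Pointwise

namespace Fermat.Agent.S57

section

variable {𝒪 : Type} [CommRing 𝒪]

/-- The ring hom "set `X 0 = 0`" from `n + 1` variables to `n` variables. -/
noncomputable def evalZero (n : ℕ) :
    MvPowerSeries (Fin (n + 1)) 𝒪 →+* MvPowerSeries (Fin n) 𝒪 :=
  (PowerSeries.constantCoeff (R := MvPowerSeries (Fin n) 𝒪)).comp
    (MvPowerSeries.finSuccEquiv 𝒪 n).toRingHom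

theorem evalZero_apply (n : ℕ) (f : MvPowerSeries (Fin (n + 1)) 𝒪) :
    evalZero n f = PowerSeries.constantCoeff (MvPowerSeries.finSuccEquiv 𝒪 n f) := rfl

theorem evalZero_X_succ (n : ℕ) (i : Fin n) :
    evalZero (𝒪 := 𝒪) n (MvPowerSeries.X i.succ) = MvPowerSeries.X i := by
  rw [evalZero_apply, MvPowerSeries.finSuccEquiv_X_succ, PowerSeries.constantCoeff_C]

theorem evalZero_C (n : ℕ) (a : 𝒪) :
    evalZero (𝒪 := 𝒪) n (MvPowerSeries.C a) = MvPowerSeries.C a := by
  rw [evalZero_apply, MvPowerSeries.finSuccEquiv_C, PowerSeries.constantCoeff_C]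

theorem evalZero_surjective (n : ℕ) : Function.Surjective (evalZero (𝒪 := 𝒪) n) := by
  intro g
  obtain ⟨p, hp⟩ := PowerSeries.constantCoeff_surj (R := MvPowerSeries (Fin n) 𝒪) g
  refine ⟨(MvPowerSeries.finSuccEquiv 𝒪 n).symm p, ?_⟩
  rw [evalZero_apply, AlgEquiv.apply_symm_apply, hp]

theorem evalZero_eq_zero_iff (n : ℕ) (f : MvPowerSeries (Fin (n + 1)) 𝒪) :
    evalZero n f = 0 ↔ (MvPowerSeries.X 0 : MvPowerSeries (Fin (n + 1)) 𝒪) ∣ f := by
  rw [evalZero_apply, ← PowerSeries.X_dvd_iff,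
    ← MvPowerSeries.finSuccEquiv_X_zero (R := 𝒪) (n := n)]
  exact map_dvd_iff (MvPowerSeries.finSuccEquiv 𝒪 n)

variable [IsDomain 𝒪]

theorem isSMulRegular_of_ne_zero' {S : Type*} [CommRing S] [NoZeroDivisors S] {x : S}
    (hx : x ≠ 0) : IsSMulRegular S x := by
  intro a b hab
  have h : x * (a - b) = 0 := by
    rw [mul_sub, sub_eq_zero]
    exact hab
  rcases mul_eq_zero.mp h with h | h
  · exact absurd h hx
  · exact sub_eq_zero.mp h

theorem mvPowerSeries_X_ne_zero' {σ : Type*} {A : Type*} [CommRing A] [Nontrivial A] (i : σ) :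
    (MvPowerSeries.X i : MvPowerSeries σ A) ≠ 0 := by
  classical
  intro h
  have := congrArg (MvPowerSeries.coeff (Finsupp.single i 1)) h
  rw [MvPowerSeries.coeff_index_single_self_X, map_zero] at this
  exact one_ne_zero this

/-- The sequence `X 0, …, X (r-1), ϖ` is weakly regular on `𝒪⟦X 0, …, X (r-1)⟧` for a domain `𝒪`
and `ϖ ≠ 0`. -/
theorem isWeaklyRegular_X_C (r : ℕ) {ϖ : 𝒪} (hϖ : ϖ ≠ 0) :
    IsWeaklyRegular (MvPowerSeries (Fin r) 𝒪)
      (List.ofFn (fun i : Fin r => (MvPowerSeries.X i : MvPowerSeries (Fin r) 𝒪)) ++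
        [MvPowerSeries.C ϖ]) := by
  induction r with
  | zero =>
    simp only [List.ofFn_zero, List.nil_append]
    rw [isWeaklyRegular_singleton_iff]
    apply isSMulRegular_of_ne_zero'
    intro h
    apply hϖ
    have := congrArg MvPowerSeries.constantCoeff h
    simpa using this
  | succ n ih =>
    rw [List.ofFn_succ, List.cons_append, isWeaklyRegular_cons_iff]
    refine ⟨isSMulRegular_of_ne_zero' (mvPowerSeries_X_ne_zero' 0), ?_⟩
    let _ : Module (MvPowerSeries (Fin (n + 1)) 𝒪) (MvPowerSeries (Fin n) 𝒪) :=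
      Module.compHom _ (evalZero (𝒪 := 𝒪) n)
    have hsmul : ∀ (a : MvPowerSeries (Fin (n + 1)) 𝒪) (b : MvPowerSeries (Fin n) 𝒪),
        a • b = evalZero n a * b := fun a b => rfl
    let l : MvPowerSeries (Fin (n + 1)) 𝒪 →ₗ[MvPowerSeries (Fin (n + 1)) 𝒪]
        MvPowerSeries (Fin n) 𝒪 :=
      { toFun := evalZero n
        map_add' := map_add _
        map_smul' := fun a b => by
          rw [smul_eq_mul, map_mul, RingHom.id_apply, hsmul] }
    have hl : ∀ f, l f = evalZero n f := fun f => rfl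
    have hsurj : Function.Surjective l := evalZero_surjective n
    have hker : LinearMap.ker l =
        (MvPowerSeries.X 0 : MvPowerSeries (Fin (n + 1)) 𝒪) •
          (⊤ : Submodule (MvPowerSeries (Fin (n + 1)) 𝒪) (MvPowerSeries (Fin (n + 1)) 𝒪)) := by
      ext f
      rw [LinearMap.mem_ker, hl, evalZero_eq_zero_iff,
        Submodule.mem_smul_pointwise_iff_exists]
      constructor
      · rintro ⟨g, rfl⟩
        exact ⟨g, Submodule.mem_top, rfl⟩
      · rintro ⟨g, -, rfl⟩
        exact ⟨g, rfl⟩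
    let e : QuotSMulTop (MvPowerSeries.X 0 : MvPowerSeries (Fin (n + 1)) 𝒪)
        (MvPowerSeries (Fin (n + 1)) 𝒪) ≃ₗ[MvPowerSeries (Fin (n + 1)) 𝒪]
        MvPowerSeries (Fin n) 𝒪 :=
      (Submodule.quotEquivOfEq _ _ hker.symm).trans (l.quotKerEquivOfSurjective hsurj)
    have hmap : (List.ofFn (fun i : Fin n =>
          (MvPowerSeries.X i.succ : MvPowerSeries (Fin (n + 1)) 𝒪)) ++
          [MvPowerSeries.C ϖ]).map (evalZero n) =
        List.ofFn (fun i : Fin n => (MvPowerSeries.X i : MvPowerSeries (Fin n) 𝒪)) ++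
          [MvPowerSeries.C ϖ] := by
      rw [List.map_append, List.map_ofFn, List.map_singleton, evalZero_C]
      congr 1
      congr 1
      funext i
      exact evalZero_X_succ n i
    refine (e.toAddEquiv.isWeaklyRegular_congr (bs := List.ofFn (fun i : Fin n =>
      (MvPowerSeries.X i : MvPowerSeries (Fin n) 𝒪)) ++ [MvPowerSeries.C ϖ]) ?_).mpr ih
    rw [← hmap, List.forall₂_map_right_iff, List.forall₂_same]
    intro a _ x
    change e (a • x) = evalZero n a • e x
    rw [map_smul, hsmul, smul_eq_mul]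

end

end Fermat.Agent.S57
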